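import Fermat.Agent.JT.Lev0

/-!
# Families of Taylor–Wiles levels
-/

set_option autoImplicit false
set_option linter.unusedSectionVars false
set_option linter.style.haveILetI false

open IsLocalRing
open scoped TensorProduct
open Fermat.Agent.KumG Fermat.Agent.GalRep Fermat.Agent.Places Fermat.Agent.Cheb Fermat.Agent.TW
open Fermat.Agent.Cov Fermat.Agent.JT

namespace Fermat.Agent.AsmF

noncomputable section

/-! ### The levels -/

/-- the base levels -/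
def NJ {t : ℕ} (Nm : ℕ) (q : Fin t → ℕ) (J : Finset (Fin t)) : ℕ := Nm * ∏ j ∈ J, q j

/-- the full levels -/
def FN {t r : ℕ} (Nm : ℕ) (q : Fin t → ℕ) (v : Fin r → ℕ) (J : Finset (Fin t)) : ℕ :=
  NJ Nm q J * ∏ i, v i

section num

variable {t r : ℕ} {Nm : ℕ} {q : Fin t → ℕ} {v : Fin r → ℕ}

theorem NJ_ne (hNm : Nm ≠ 0) (hq : ∀ j, (q j).Prime) (J : Finset (Fin t)) : NJ Nm q J ≠ 0 :=
  mul_ne_zero hNm (Finset.prod_ne_zero_iff.2 fun j _ => (hq j).ne_zero)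

theorem FN_ne (hNm : Nm ≠ 0) (hq : ∀ j, (q j).Prime) (hv : ∀ i, (v i).Prime)
    (J : Finset (Fin t)) : FN Nm q v J ≠ 0 :=
  mul_ne_zero (NJ_ne hNm hq J) (Finset.prod_ne_zero_iff.2 fun i _ => (hv i).ne_zero)

theorem NN_ne (hNm : Nm ≠ 0) (hq : ∀ j, (q j).Prime) (hv : ∀ i, (v i).Prime)
    (J : Finset (Fin t)) (s : Finset (Fin r)) : NN (NJ Nm q J) v s ≠ 0 :=
  mul_ne_zero (NJ_ne hNm hq J) (Finset.prod_ne_zero_iff.2 fun i _ => (hv i).ne_zero)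

theorem NJ_dvd (J : Finset (Fin t)) : NJ Nm q J ∣ NJ Nm q Finset.univ :=
  mul_dvd_mul_left _ (Finset.prod_dvd_prod_of_subset _ _ _ (Finset.subset_univ J))

theorem Nm_dvd (J : Finset (Fin t)) : Nm ∣ NJ Nm q J := dvd_mul_right _ _

theorem NJ_insert {j : Fin t} {J : Finset (Fin t)} (hj : j ∉ J) :
    NJ Nm q (insert j J) = q j * NJ Nm q J := by
  rw [NJ, NJ, Finset.prod_insert hj]
  ring

theorem FN_insert {j : Fin t} {J : Finset (Fin t)} (hj : j ∉ J) :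
    FN Nm q v (insert j J) = q j * FN Nm q v J := by
  rw [FN, FN, NJ_insert hj, mul_assoc]

theorem dvd_FN (i : Fin r) (J : Finset (Fin t)) : v i ∣ FN Nm q v J :=
  (Finset.dvd_prod_of_mem v (Finset.mem_univ i)).trans (dvd_mul_left _ _)

theorem NN_dvd_FN (J : Finset (Fin t)) (s : Finset (Fin r)) :
    NN (NJ Nm q J) v s ∣ FN Nm q v J :=
  mul_dvd_mul_left _ (Finset.prod_dvd_prod_of_subset _ _ _ (Finset.subset_univ s))

end num

section HQ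

variable {r : ℕ} {v : Fin r → ℕ} {M N : ℕ} [NeZero M] [NeZero N]

/-- the level subgroups are compatible -/
theorem HM_HQ (hMN : M ∣ N) (hvM : ∀ i, v i ∣ M) (hvN : ∀ i, v i ∣ N) (c : Fin r → ℕ) :
    HM hMN (HQ hvM c) = HQ hvN c := by
  ext d
  rw [HM, Subgroup.mem_comap, mem_HQ, mem_HQ]
  refine forall_congr' fun i => ?_
  have h1 : ZMod.unitsMap (hvM i) (ZMod.unitsMap hMN d) = ZMod.unitsMap (hvN i) d := by
    rw [← ZMod.unitsMap_comp (hvM i) hMN]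
    rfl
  rw [h1]

end HQ

section mono

variable {O : Type} [CommRing O] [IsLocalRing O] [IsNoetherianRing O]
  [IsAdicComplete (maximalIdeal O) O] {p : ℕ} [hp : Fact p.Prime]
  {hpO : (p : O) ∈ maximalIdeal O} {ι : AlgebraicClosure ℚ →+* ℂ} [Invertible (2 : O)]
  {t : GQ → ResidueField O} {g₀ k₀ : GQ} {hgk : HG.IrrAt t g₀ k₀} {N : ℕ} [NeZero N]
  {S : Set ℕ} {hNS : ∀ l, l.Prime → l ∣ N → l ∈ S} {θ : TS O S →ₐ[O] ResidueField O}
  {r : ℕ} {v : Fin r → ℕ} {A : Fin r → ValuationSubring (AlgebraicClosure ℚ)}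
  {m c : Fin r → ℕ} {e : TS O S} {B B' : ℕ}

theorem Lev0.mono (h : Lev0 hpO ι hgk hNS θ v A m c e B) (hB : B ≤ B') :
    Lev0 hpO ι hgk hNS θ v A m c e B' :=
  haveI := h.hH
  haveI := h.nt
  haveI := h.fr
  { hvN := h.hvN
    hΔ := h.hΔ
    he := h.he
    heH := h.heH
    hg := h.hg
    reg := h.reg
    free := fun L => by
      obtain ⟨d, E, f, h1, h2, h3⟩ := h.free L
      exact ⟨d, E, f, h1, h2.trans hB, h3⟩ }

end mono

/-! ### The family -/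

section fam

variable {O : Type} [CommRing O] [IsDomain O] [IsDiscreteValuationRing O]
  [IsAdicComplete (maximalIdeal O) O] [CharZero O] {p : ℕ} [hp : Fact p.Prime]
  (hpO : (p : O) ∈ maximalIdeal O)

include hpO in
/-- **The family of Taylor–Wiles levels.** -/
theorem exists_fam (hp2 : p ≠ 2) (ι : AlgebraicClosure ℚ →+* ℂ)
    [Invertible (2 : O)] {tr D : GQ → ResidueField O} {g₀ k₀ : GQ} (hgk : HG.IrrAt tr g₀ k₀)
    {S₀ : Set ℕ} (hS₀ : S₀.Finite) (hpS₀ : p ∈ S₀) {tl : ℕ → ResidueField O}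
    (ht : IsPseudoRep tr D) (htc : IsLocConst tr)
    (hfrob : ∀ l : ℕ, l.Prime → l ∉ S₀ → ∀ A : ValuationSubring (AlgebraicClosure ℚ),
      A.LiesOverPrime l → ∀ τ : GQ, A.IsFrobeniusAt τ l → tr τ = tl l ∧ D τ = l)
    (hcom : ∃ σ τ, tr (σ * τ * σ⁻¹ * τ⁻¹) ≠ 2)
    {t Nm : ℕ} {q : Fin t → ℕ} (hNm : 3 ≤ Nm) (hq : ∀ j, (q j).Prime)
    [iJ : ∀ J, NeZero (NJ Nm q J)]
    (hJS₀ : ∀ J, ∀ l, l.Prime → l ∣ NJ Nm q J → l ∈ S₀)
    (hocc : ∀ J, ∀ s : TS O S₀, phiG O (hJS₀ J) s = 0 → thS tl S₀ s = 0)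
    {r : ℕ} {v : Fin r → ℕ} {A : Fin r → ValuationSubring (AlgebraicClosure ℚ)}
    {Φ : Fin r → GQ} (hinj : Function.Injective v) (hvS : ∀ i, v i ∉ S₀)
    {m c : Fin r → ℕ} (hmc : ∀ i, v i - 1 = p ^ m i * c i) (hc : ∀ i, ¬ p ∣ c i)
    (hm : ∀ i, 1 ≤ m i) (hv : ∀ i, TWp p tr (v i) (A i) (Φ i))
    {S : Set ℕ} (hSS : S = S₀ ∪ Set.range v)
    [iF : ∀ J, NeZero (FN Nm q v J)] [iN : ∀ J (s : Finset (Fin r)), NeZero (NN (NJ Nm q J) v s)]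
    (hNS : ∀ J, ∀ l, l.Prime → l ∣ FN Nm q v J → l ∈ S)
    (hNNS : ∀ J s, ∀ l, l.Prime → l ∣ NN (NJ Nm q J) v s → l ∈ S)
    (hvN : ∀ J i, v i ∣ FN Nm q v J)
    [hH : ∀ J, Fact ((-1 : (ZMod (FN Nm q v J))ˣ) ∈ HQ (hvN J) c)] :
    ∃ e : TS O S, (∀ J, EOK (hNNS J) (hNS J) (HQ (hvN J) c) (thS tl S) e) ∧
      ∀ J, Lev0 hpO ι hgk (hNS J) (thS tl S) v A m c e
        (∑ J : Finset (Fin t), 2 ^ r * Module.finrank O (XG O (NJ Nm q J))) := by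
  obtain ⟨e, he⟩ := exists_e_fam (v := v) (fun J : Finset (Fin t) => NJ Nm q J)
    (fun J => FN Nm q v J) hNNS hNS (fun J => HQ (hvN J) c) (thS tl S)
  refine ⟨e, he, fun J => ?_⟩
  have h3 : 3 ≤ NJ Nm q J := hNm.trans (Nat.le_of_dvd (NeZero.pos _) (Nm_dvd J))
  have hN : FN Nm q v J = NJ Nm q J * ∏ i, v i := rfl
  have hL : Lev0 hpO ι hgk (hNS J) (thS tl S) v A m c e
      (2 ^ r * Module.finrank O (XG O (NJ Nm q J))) :=
    exists_lev0 hpO hp2 ι hgk h3 hS₀ hpS₀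
      (hJS₀ J) ht htc hfrob (hocc J) hcom hinj hvS hmc hc hm hv hN hSS (hNS J) (hvN J) (hNNS J)
      (he J)
  refine Lev0.mono hL ?_
  exact Finset.single_le_sum (f := fun J : Finset (Fin t) =>
      2 ^ r * Module.finrank O (XG O (NJ Nm q J))) (fun _ _ => Nat.zero_le _) (Finset.mem_univ J)

end fam

end

end Fermat.Agent.AsmF
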