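import Fermat.Agent.AsmF.Step

/-!
# Families of Taylor–Wiles levels with their degeneracy data
-/

set_option autoImplicit false
set_option linter.unusedSectionVars false
set_option linter.style.haveILetI false

open IsLocalRing
open scoped TensorProduct
open Fermat.Agent.KumG Fermat.Agent.GalRep Fermat.Agent.Places Fermat.Agent.Cheb Fermat.Agent.TW
open Fermat.Agent.Cov Fermat.Agent.JT Fermat.Agent.S59e Fermat.Agent.SSH Fermat.Agent.AsmL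

namespace Fermat.Agent.AsmF

noncomputable section

variable {O : Type} [CommRing O] [IsDomain O] [IsDiscreteValuationRing O]
  [IsAdicComplete (maximalIdeal O) O] [CharZero O] {p : ℕ} [hp : Fact p.Prime]

/-- **Auxiliary primes** for Ihara's lemma -/
def HAux (tl : ℕ → ResidueField O) : Prop :=
  ∀ (q N : ℕ), q.Prime → 0 < N → ¬ q ∣ N → ∀ S : Set ℕ, S.Finite → ∃ l l₀ : ℕ, l ∉ S ∧
    LevelRaise.Aux q N l l₀ ∧ tl l ^ 2 ≠ ((l : ResidueField O) + 1) ^ 2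

/-- a prime `l ≡ 1 mod N` with non Eisenstein Hecke eigenvalue -/
theorem exists_eis (hpO : (p : O) ∈ maximalIdeal O) {S₀ : Set ℕ}
    {tl : ℕ → ResidueField O} {tr D : GQ → ResidueField O}
    (ht : IsPseudoRep tr D) (htc : IsLocConst tr)
    (hfrob : ∀ l : ℕ, l.Prime → l ∉ S₀ → ∀ A : ValuationSubring (AlgebraicClosure ℚ),
      A.LiesOverPrime l → ∀ τ : GQ, A.IsFrobeniusAt τ l → tr τ = tl l ∧ D τ = l)
    (hcom : ∃ σ τ, tr (σ * τ * σ⁻¹ * τ⁻¹) ≠ 2) {S : Set ℕ} (hS : S.Finite) (hS₀S : S₀ ⊆ S)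
    [Invertible (2 : O)] (N : ℕ) [NeZero N] :
    ∃ i : IS S, thS tl S (eisP O i) ≠ 0 ∧ (N : ℤ) ∣ (i.1 : ℤ) - 1 := by
  obtain ⟨l, hl, hlS, hlN, hl1, B, hB, τ, hτ, htτ⟩ := exists_aux (k := ResidueField O) (p := p)
    (by rw [← map_natCast (residue O)]; exact (IsLocalRing.residue_eq_zero_iff _).2 hpO)
    ht htc (S₀ := S₀) (fun l hl hlS A hA τ hτ => (hfrob l hl hlS A hA τ hτ).2) hcom N hS hS₀S
  refine ⟨⟨l, hl, hlS⟩, ?_, hlN⟩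
  rw [eisP, map_sub, thS_X, ← MvPolynomial.algebraMap_eq, AlgHom.commutes, map_natCast,
    Nat.cast_add, Nat.cast_one]
  change tl l - ((l : ResidueField O) + 1) ≠ 0
  rw [hl1, ← (hfrob l hl (fun h => hlS (hS₀S h)) B hB τ hτ).1]
  intro h
  apply htτ
  linear_combination h

theorem thS_ttP {tl : ℕ → ResidueField O} {S : Set ℕ} (i : IS S)
    (h : tl i.1 ^ 2 ≠ ((i.1 : ResidueField O) + 1) ^ 2) : thS tl S (ttP i) ≠ 0 := by
  rw [ttP, map_sub, map_mul, thS_X, ← MvPolynomial.algebraMap_eq, AlgHom.commutes, map_natCast]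
  push_cast
  rw [← pow_two]
  exact sub_ne_zero.2 h

section fam

variable (hpO : (p : O) ∈ maximalIdeal O)

include hpO in
/-- **A family of Taylor–Wiles levels.** -/
theorem exists_famG (hp2 : p ≠ 2) (ι : AlgebraicClosure ℚ →+* ℂ)
    [Invertible (2 : O)] {tr D : GQ → ResidueField O} {g₀ k₀ : GQ} (hgk : HG.IrrAt tr g₀ k₀)
    {S₀ : Set ℕ} (hS₀ : S₀.Finite) (hpS₀ : p ∈ S₀) {tl : ℕ → ResidueField O}
    (ht : IsPseudoRep tr D) (htc : IsLocConst tr)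
    (hfrob : ∀ l : ℕ, l.Prime → l ∉ S₀ → ∀ A : ValuationSubring (AlgebraicClosure ℚ),
      A.LiesOverPrime l → ∀ τ : GQ, A.IsFrobeniusAt τ l → tr τ = tl l ∧ D τ = l)
    (hcom : ∃ σ τ, tr (σ * τ * σ⁻¹ * τ⁻¹) ≠ 2)
    {I : Type} [Fintype I] {N₀ N : I → ℕ} (hN₀ : ∀ i, 3 ≤ N₀ i)
    [∀ i, NeZero (N₀ i)]
    (hS₀' : ∀ i, ∀ l, l.Prime → l ∣ N₀ i → l ∈ S₀)
    (hocc : ∀ i, ∀ s : TS O S₀, phiG O (hS₀' i) s = 0 → thS tl S₀ s = 0)
    {r : ℕ} {v : Fin r → ℕ} {A : Fin r → ValuationSubring (AlgebraicClosure ℚ)}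
    {Φ : Fin r → GQ} (hinj : Function.Injective v) (hvS : ∀ i, v i ∉ S₀)
    {m c : Fin r → ℕ} (hmc : ∀ i, v i - 1 = p ^ m i * c i) (hc : ∀ i, ¬ p ∣ c i)
    (hm : ∀ i, 1 ≤ m i) (hv : ∀ i, TWp p tr (v i) (A i) (Φ i))
    {S : Set ℕ} (hSS : S = S₀ ∪ Set.range v) (hN : ∀ i, N i = N₀ i * ∏ i, v i)
    [iF : ∀ i, NeZero (N i)] [iN : ∀ i (s : Finset (Fin r)), NeZero (NN (N₀ i) v s)]
    (hNS : ∀ i, ∀ l, l.Prime → l ∣ N i → l ∈ S)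
    (hNNS : ∀ i s, ∀ l, l.Prime → l ∣ NN (N₀ i) v s → l ∈ S)
    (hvN : ∀ i j, v j ∣ N i)
    [hH : ∀ i, Fact ((-1 : (ZMod (N i))ˣ) ∈ HQ (hvN i) c)] :
    ∃ e : TS O S, (∀ i, EOK (hNNS i) (hNS i) (HQ (hvN i) c) (thS tl S) e) ∧
      ∀ i, Lev0 hpO ι hgk (hNS i) (thS tl S) v A m c e
        (∑ i, 2 ^ r * Module.finrank O (XG O (N₀ i))) := by
  obtain ⟨e, he⟩ := exists_e_fam (v := v) N₀ N hNNS hNS (fun i => HQ (hvN i) c) (thS tl S)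
  refine ⟨e, he, fun i => ?_⟩
  have hL : Lev0 hpO ι hgk (hNS i) (thS tl S) v A m c e
      (2 ^ r * Module.finrank O (XG O (N₀ i))) :=
    exists_lev0 hpO hp2 ι hgk (hN₀ i) hS₀ hpS₀ (hS₀' i) ht htc hfrob (hocc i) hcom hinj hvS hmc
      hc hm hv (hN i) hSS (hNS i) (hvN i) (hNNS i) (he i)
  refine Lev0.mono hL ?_
  exact Finset.single_le_sum (f := fun i => 2 ^ r * Module.finrank O (XG O (N₀ i)))
    (fun _ _ => Nat.zero_le _) (Finset.mem_univ i)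

/-- `phiG` localises at the top level -/
theorem EOK.top {N₀ : ℕ} {r : ℕ} {v : Fin r → ℕ} {N : ℕ} [NeZero N]
    [∀ s : Finset (Fin r), NeZero (NN N₀ v s)] {S : Set ℕ}
    {hNNS : ∀ s, ∀ l, l.Prime → l ∣ NN N₀ v s → l ∈ S} {hNS : ∀ l, l.Prime → l ∣ N → l ∈ S}
    {H : Subgroup (ZMod N)ˣ} [hH : Fact ((-1 : (ZMod N)ˣ) ∈ H)]
    {θ : TS O S →ₐ[O] ResidueField O} {e : TS O S} (h : EOK hNNS hNS H θ e)
    (hN : N = N₀ * ∏ i, v i) : IsLoc (phiG O hNS) θ e :=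
  (isLoc_congr (show NN N₀ v Finset.univ = N from hN.symm) (hNNS _) hNS (h.G Finset.univ)).1

variable {hpO}

/-- **The degeneracy data of a step of the family.** -/
theorem exists_ihQ_fam (hp2 : p ≠ 2) {ι : AlgebraicClosure ℚ →+* ℂ}
    [Invertible (2 : O)] {tr D : GQ → ResidueField O} {g₀ k₀ : GQ} {hgk : HG.IrrAt tr g₀ k₀}
    {S₀ : Set ℕ} (hS₀ : S₀.Finite) {tl : ℕ → ResidueField O} (haux : HAux tl)
    (ht : IsPseudoRep tr D) (htc : IsLocConst tr)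
    (hfrob : ∀ l : ℕ, l.Prime → l ∉ S₀ → ∀ A : ValuationSubring (AlgebraicClosure ℚ),
      A.LiesOverPrime l → ∀ τ : GQ, A.IsFrobeniusAt τ l → tr τ = tl l ∧ D τ = l)
    (hcom : ∃ σ τ, tr (σ * τ * σ⁻¹ * τ⁻¹) ≠ 2)
    {r : ℕ} {v : Fin r → ℕ} {A : Fin r → ValuationSubring (AlgebraicClosure ℚ)}
    {m c : Fin r → ℕ} {S : Set ℕ} (hSS : S = S₀ ∪ Set.range v) {q M₀ M N₀ N : ℕ}
    (hM3 : 3 ≤ M) (hM : M = M₀ * ∏ i, v i) (hN : N = N₀ * ∏ i, v i) (hq : q.Prime)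
    (hqp : q ≠ p) (hMN : N = q * M) (hqM : ¬ q ∣ M) [NeZero M] [NeZero N]
    [∀ s : Finset (Fin r), NeZero (NN M₀ v s)] [∀ s : Finset (Fin r), NeZero (NN N₀ v s)]
    {hMS : ∀ l, l.Prime → l ∣ M → l ∈ S} {hNS : ∀ l, l.Prime → l ∣ N → l ∈ S}
    {hMMS : ∀ s, ∀ l, l.Prime → l ∣ NN M₀ v s → l ∈ S}
    {hNNS : ∀ s, ∀ l, l.Prime → l ∣ NN N₀ v s → l ∈ S}
    {e : TS O S} {B : ℕ} (X : Lev0 hpO ι hgk hMS (thS tl S) v A m c e B)
    (X' : Lev0 hpO ι hgk hNS (thS tl S) v A m c e B)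
    (hX : haveI := X.hH; EOK hMMS hMS (HQ X.hvN c) (thS tl S) e)
    (hX' : haveI := X'.hH; EOK hNNS hNS (HQ X'.hvN c) (thS tl S) e)
    {Aq : ValuationSubring (AlgebraicClosure ℚ)} (hAq : Aq.LiesOverPrime q)
    {Φ : GQ} (hΦ : Aq.IsFrobeniusAt Φ q) :
    Nonempty (IhQ (LM.of X) (LM.of X') q Φ) := by
  haveI := X.hH
  haveI := X'.hH
  haveI : Fact q.Prime := ⟨hq⟩
  have hS₀S : S₀ ⊆ S := by rw [hSS]; exact Set.subset_union_left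
  have hS : S.Finite := by rw [hSS]; exact hS₀.union (Set.finite_range v)
  obtain ⟨l, l₀, hlS, hl, hl2⟩ := haux q M hq (NeZero.pos M) hqM S hS
  exact exists_ihQ hp2 hMN hqM hM3 hqp X X' (EOK.top hX hM) (EOK.top hX' hN)
    (exists_eis hpO ht htc hfrob hcom hS hS₀S N) hl hlS (thS_ttP ⟨l, hl.hr, hlS⟩ hl2) hAq hΦ

end fam

end

end Fermat.Agent.AsmF
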