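import Fermat.Agent.AsmF.FamIh
import Fermat.Agent.CoreW.Setup

/-!
# The families of Taylor–Wiles levels of a semistable curve
-/

set_option autoImplicit false
set_option linter.unusedSectionVars false
set_option linter.style.haveILetI false

noncomputable section

namespace Fermat.Agent.AsmF

open Matrix IsLocalRing Fermat.Agent.GalRep Fermat.Agent.TW Fermat.Agent.Places Fermat.Agent.Flat
open Fermat.Agent.Cheb Fermat.Agent.KumG Fermat.Agent.MD Fermat.Agent.Sel Fermat.Agent.ImW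
open Fermat.Agent.WM Fermat.Agent.StR Fermat.Agent.JT Fermat.Agent.AsmL Fermat.Agent.CoreW
open Fermat.Agent.S59e

local notation "Ω" => AlgebraicClosure ℚ

local notation "𝒢" => (AlgebraicClosure ℚ) ≃ₐ[ℚ] (AlgebraicClosure ℚ)

/-- **Auxiliary primes** for a curve with irreducible `p`-torsion -/
theorem haux_W {O : Type} [CommRing O] [IsDomain O] [IsDiscreteValuationRing O]
    {W : WeierstrassCurve ℤ} {p : ℕ} [hp : Fact p.Prime] (hp2 : p ≠ 2) (hΔ : W.Δ ≠ 0)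
    (hirr : W.ModRepIsIrreducible p) (κ : ZMod p →+* ResidueField O) : HAux (tl κ W) := by
  intro q N hq hN hqN S hS
  haveI := CL.isElliptic_EQ hΔ
  obtain ⟨l, l₀, hlS, -, haux, hl⟩ := LevelRaise.exists_aux hp.out hp2 hq hN hqN (CL.EQ W)
    (CL.isIntegralModelOf_EQ W) hirr S hS
  refine ⟨l, l₀, hlS, haux, fun h => hl ?_⟩
  apply κ.injective
  rw [map_pow, map_pow, map_add, map_natCast, map_one]
  exact h

section chain

variable {O : Type} [CommRing O] [IsLocalRing O] [IsNoetherianRing O]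
  [IsAdicComplete (maximalIdeal O) O] {p : ℕ} [hp : Fact p.Prime]
  {hpO : (p : O) ∈ maximalIdeal O} [Invertible (2 : O)]
  {tr : GQ → ResidueField O} {g₀ k₀ : GQ} {hgk : HG.IrrAt tr g₀ k₀} {r : ℕ} {v : Fin r → ℕ}
  {Av : Fin r → ValuationSubring Ω} {m : Fin r → ℕ} {B t : ℕ}

theorem exists_gmi {X : Finset (Fin t) → LM hpO hgk v Av m B}
    (h : ∀ J j, j ∉ J → Nonempty (GMi (X J) (X (insert j J)))) (J : Finset (Fin t)) :
    Nonempty (GMi (X ∅) (X J)) := by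
  classical
  induction J using Finset.induction_on with
  | empty => exact ⟨GMi.id _⟩
  | insert j J hj ih =>
    obtain ⟨f⟩ := ih
    obtain ⟨g⟩ := h J j hj
    exact ⟨f.comp g⟩

end chain

section lev

variable {W : WeierstrassCurve ℤ} {p r₀ : ℕ} [hp : Fact p.Prime] {ρ : 𝒢 →* M2 (ZMod p)}
  (h : ResW W p ρ)
  {O : Type} [CommRing O] [IsDomain O] [IsDiscreteValuationRing O]
  [IsAdicComplete (maximalIdeal O) O] [CharZero O] [Finite (ResidueField O)]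
  (hp2 : p ≠ 2) (hpO : (p : O) ∈ maximalIdeal O)
  (ι : AlgebraicClosure ℚ →+* ℂ) [Invertible (2 : O)] [Algebra (ZMod p) (ResidueField O)]
  {g₀ k₀ : 𝒢}
  (hgk : HG.IrrAt (fun g => (extW ρ (algebraMap (ZMod p) (ResidueField O)) g).trace) g₀ k₀)
  {t : ℕ} {q : Fin t → ℕ} {ty : Fin t → Ty} {S₀ Un : Finset ℕ} {pe : ℕ}
  (D : BData W p r₀ ρ (ResidueField O) q ty S₀ Un pe)

local notation "tlW" => tl (algebraMap (ZMod p) (ResidueField O)) W

variable (O) in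
/-- the bound for the ranks -/
def bnd (pe r₀ : ℕ) (Un : Finset ℕ) {t : ℕ} (q : Fin t → ℕ) (r : ℕ)
    [∀ J, NeZero (CoreW.NJ pe r₀ Un q J)] : ℕ :=
  ∑ J : Finset (Fin t), 2 ^ r * Module.finrank O (XG O (CoreW.NJ pe r₀ Un q J))

include h D hp2 in
/-- **one step of the family** -/
theorem ihQ_W (haux : HAux tlW)
    {r : ℕ} {v : Fin r → ℕ} {A : Fin r → ValuationSubring (AlgebraicClosure ℚ)}
    {m c : Fin r → ℕ} (hvS : ∀ i, v i ∉ (S₀ : Set ℕ)) (hv : ∀ i, (v i).Prime)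
    {S : Set ℕ} (hSS : S = (S₀ : Set ℕ) ∪ Set.range v)
    {N : Finset (Fin t) → ℕ} (hN : ∀ J, N J = CoreW.NJ pe r₀ Un q J * ∏ i, v i)
    [∀ J, NeZero (N J)] [∀ J (s : Finset (Fin r)), NeZero (NN (CoreW.NJ pe r₀ Un q J) v s)]
    {hNS : ∀ J, ∀ l, l.Prime → l ∣ N J → l ∈ S}
    {hNNS : ∀ J s, ∀ l, l.Prime → l ∣ NN (CoreW.NJ pe r₀ Un q J) v s → l ∈ S}
    {e : TS O S} {B : ℕ}
    (X : ∀ J, Lev0 hpO ι hgk (hNS J) (thS tlW S) v A m c e B)
    (hX : ∀ J, haveI := (X J).hH; EOK (hNNS J) (hNS J) (HQ (X J).hvN c) (thS tlW S) e)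
    {J : Finset (Fin t)} {j : Fin t} (hj : j ∉ J)
    {Aq : ValuationSubring (AlgebraicClosure ℚ)} (hAq : Aq.LiesOverPrime (q j))
    {Φ : GQ} (hΦ : Aq.IsFrobeniusAt Φ (q j)) :
    Nonempty (IhQ (LM.of (X J)) (LM.of (X (insert j J))) (q j) Φ) := by
  have hq := D.primeq j
  have hqM : ¬ q j ∣ N J := by
    rw [hN, hq.dvd_mul, D.q_dvd_iff]
    rintro (h1 | h1)
    · exact hj h1
    · obtain ⟨i, -, hi⟩ := (hq.prime.dvd_finsetProd_iff _).1 h1
      rw [Nat.prime_dvd_prime_iff_eq hq (hv i)] at hi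
      apply hvS i
      rw [← hi]
      exact D.hNS₀ {j} _ hq ((D.q_dvd_iff {j} j).2 (Finset.mem_singleton_self j))
  have hM3 : 3 ≤ N J := by
    rw [hN]
    exact (D.three_le J).trans (Nat.le_mul_of_pos_right _
      (Finset.prod_pos fun i _ => (hv i).pos))
  exact exists_ihQ_fam hp2 (Finset.finite_toSet S₀) haux (isPseudoRep _ ρ) (isLocConst_tr h _)
    (fun l hl hlS A hA τ hτ => hfr h _ D.p_mem (fun _ hl hS => D.good hl hS) l hl hlS A hA τ hτ)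
    (exists_com h _ hp2) hSS hM3 (hN J) (hN (insert j J)) hq (D.q_ne j)
    (by rw [hN, hN, CoreW.NJ_insert pe r₀ Un q hj, mul_assoc]) hqM (X J) (X (insert j J)) (hX J)
    (hX (insert j J)) hAq hΦ

include h D hp2 in
/-- **The degeneracy data of the family** -/
theorem ihs_W (haux : HAux tlW)
    {r : ℕ} {v : Fin r → ℕ} {A : Fin r → ValuationSubring (AlgebraicClosure ℚ)}
    {m c : Fin r → ℕ} (hvS : ∀ i, v i ∉ (S₀ : Set ℕ)) (hv : ∀ i, (v i).Prime)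
    {S : Set ℕ} (hSS : S = (S₀ : Set ℕ) ∪ Set.range v)
    {N : Finset (Fin t) → ℕ} (hN : ∀ J, N J = CoreW.NJ pe r₀ Un q J * ∏ i, v i)
    [∀ J, NeZero (N J)] [∀ J (s : Finset (Fin r)), NeZero (NN (CoreW.NJ pe r₀ Un q J) v s)]
    {hNS : ∀ J, ∀ l, l.Prime → l ∣ N J → l ∈ S}
    {hNNS : ∀ J s, ∀ l, l.Prime → l ∣ NN (CoreW.NJ pe r₀ Un q J) v s → l ∈ S}
    {e : TS O S} {B : ℕ}
    (X : ∀ J, Lev0 hpO ι hgk (hNS J) (thS tlW S) v A m c e B)
    (hX : ∀ J, haveI := (X J).hH; EOK (hNNS J) (hNS J) (HQ (X J).hvN c) (thS tlW S) e)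
    {Aq : Fin t → ValuationSubring (AlgebraicClosure ℚ)} (hAq : ∀ j, (Aq j).LiesOverPrime (q j))
    {Φ : Fin t → GQ} (hΦ : ∀ j, (Aq j).IsFrobeniusAt (Φ j) (q j)) :
    (∀ J j, j ∉ J → Nonempty (IhQ (LM.of (X J)) (LM.of (X (insert j J))) (q j) (Φ j))) ∧
    (∀ j, Nonempty (IhQ (LM.of (X (Finset.univ.erase j))) (LM.of (X Finset.univ)) (q j) (Φ j))) ∧
    ∀ J, Nonempty (GMi (LM.of (X ∅)) (LM.of (X J))) := by
  have h1 : ∀ J j, j ∉ J → Nonempty (IhQ (LM.of (X J)) (LM.of (X (insert j J))) (q j) (Φ j)) :=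
    fun J j hj => ihQ_W h hp2 hpO ι hgk D haux hvS hv hSS hN X hX hj (hAq j) (hΦ j)
  refine ⟨h1, fun j => ?_, fun J => exists_gmi (X := fun J => LM.of (X J))
    (fun J j hj => (h1 J j hj).map fun I => I.toIhD.gmi) J⟩
  have h2 := h1 (Finset.univ.erase j) j (Finset.notMem_erase j _)
  rwa [Finset.insert_erase (Finset.mem_univ j)] at h2

include h D hp2 in
/-- **The family of Taylor–Wiles levels (cases I and II).** -/
theorem exists_famW (hmod : W.IsResiduallyModularOfLevel p (baseN pe r₀ Un)) (haux : HAux tlW)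
    [∀ J, NeZero (CoreW.NJ pe r₀ Un q J)]
    {r : ℕ} {v : Fin r → ℕ} {A : Fin r → ValuationSubring (AlgebraicClosure ℚ)}
    {Φv : Fin r → GQ} (hinj : Function.Injective v) (hvS : ∀ i, v i ∉ (S₀ : Set ℕ))
    {m c : Fin r → ℕ} (hmc : ∀ i, v i - 1 = p ^ m i * c i) (hc : ∀ i, ¬ p ∣ c i)
    (hm : ∀ i, 1 ≤ m i)
    (hv : ∀ i, TWp p (fun g => (extW ρ (algebraMap (ZMod p) (ResidueField O)) g).trace) (v i)
      (A i) (Φv i))
    {S : Set ℕ} (hSS : S = (S₀ : Set ℕ) ∪ Set.range v)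
    {N : Finset (Fin t) → ℕ} (hN : ∀ J, N J = CoreW.NJ pe r₀ Un q J * ∏ i, v i)
    [∀ J, NeZero (N J)] [∀ J (s : Finset (Fin r)), NeZero (NN (CoreW.NJ pe r₀ Un q J) v s)]
    (hNS : ∀ J, ∀ l, l.Prime → l ∣ N J → l ∈ S)
    (hNNS : ∀ J s, ∀ l, l.Prime → l ∣ NN (CoreW.NJ pe r₀ Un q J) v s → l ∈ S)
    (hvN : ∀ J i, v i ∣ N J) [hH : ∀ J, Fact ((-1 : (ZMod (N J))ˣ) ∈ HQ (hvN J) c)]
    {Aq : Fin t → ValuationSubring (AlgebraicClosure ℚ)} (hAq : ∀ j, (Aq j).LiesOverPrime (q j))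
    {Φ : Fin t → GQ} (hΦ : ∀ j, (Aq j).IsFrobeniusAt (Φ j) (q j)) :
    ∃ (e : TS O S) (X : ∀ J, Lev0 hpO ι hgk (hNS J) (thS tlW S) v A m c e
        (bnd O pe r₀ Un q r)),
      (∀ J, EOK (hNNS J) (hNS J) (HQ (hvN J) c) (thS tlW S) e) ∧
      (∀ J j, j ∉ J → Nonempty (IhQ (LM.of (X J)) (LM.of (X (insert j J))) (q j) (Φ j))) ∧
      (∀ j, Nonempty (IhQ (LM.of (X (Finset.univ.erase j))) (LM.of (X Finset.univ)) (q j)
        (Φ j))) ∧
      ∀ J, Nonempty (GMi (LM.of (X ∅)) (LM.of (X J))) := by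
  obtain ⟨e, he, X⟩ := exists_famG hpO hp2 ι hgk (Finset.finite_toSet S₀) D.p_mem
    (isPseudoRep _ ρ) (isLocConst_tr h _)
    (fun l hl hlS A hA τ hτ => hfr h _ D.p_mem (fun _ hl hS => D.good hl hS) l hl hlS A hA τ hτ)
    (exists_com h _ hp2) (fun J => D.three_le J) (fun J => D.hNS₀ J)
    (fun J => occ_base D hmod J (D.hNS₀ J)) hinj hvS hmc hc hm hv hSS hN hNS hNNS hvN
  exact ⟨e, X, he, ihs_W h hp2 hpO ι hgk D haux hvS (fun i => (hv i).prime) hSS hN X he hAq hΦ⟩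

end lev

end Fermat.Agent.AsmF
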