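import Fermat.Agent.AsmF.FamW
import Fermat.Agent.WM.Top

/-!
# The families of Taylor–Wiles levels of a semistable curve, case III
-/

set_option autoImplicit false
set_option linter.unusedSectionVars false
set_option linter.style.haveILetI false

noncomputable section

namespace Fermat.Agent.AsmF

open Matrix IsLocalRing Fermat.Agent.GalRep Fermat.Agent.TW Fermat.Agent.Places Fermat.Agent.Flat
open Fermat.Agent.Cheb Fermat.Agent.KumG Fermat.Agent.MD Fermat.Agent.Sel Fermat.Agent.ImW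
open Fermat.Agent.WM Fermat.Agent.StR Fermat.Agent.JT Fermat.Agent.AsmL Fermat.Agent.CoreW
open Fermat.Agent.S59e

local notation "Ω" => AlgebraicClosure ℚ

local notation "𝒢" => (AlgebraicClosure ℚ) ≃ₐ[ℚ] (AlgebraicClosure ℚ)

section two

variable {O : Type} [CommRing O] [IsDomain O] [IsDiscreteValuationRing O]
  [IsAdicComplete (maximalIdeal O) O] [CharZero O] {p : ℕ} [hp : Fact p.Prime]
  (hpO : (p : O) ∈ maximalIdeal O)

include hpO in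
/-- **Two families of Taylor–Wiles levels with a common idempotent.** -/
theorem exists_famG2 (hp2 : p ≠ 2) (ι : AlgebraicClosure ℚ →+* ℂ)
    [Invertible (2 : O)] {tr D : GQ → ResidueField O} {g₀ k₀ : GQ} (hgk : HG.IrrAt tr g₀ k₀)
    {S₀ : Set ℕ} (hS₀ : S₀.Finite) (hpS₀ : p ∈ S₀) {tl : ℕ → ResidueField O}
    (ht : IsPseudoRep tr D) (htc : IsLocConst tr)
    (hfrob : ∀ l : ℕ, l.Prime → l ∉ S₀ → ∀ A : ValuationSubring (AlgebraicClosure ℚ),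
      A.LiesOverPrime l → ∀ τ : GQ, A.IsFrobeniusAt τ l → tr τ = tl l ∧ D τ = l)
    (hcom : ∃ σ τ, tr (σ * τ * σ⁻¹ * τ⁻¹) ≠ 2)
    {I : Type} [Fintype I] {N₀ N N₀' N' : I → ℕ} (hN₀ : ∀ i, 3 ≤ N₀ i) (hN₀' : ∀ i, 3 ≤ N₀' i)
    [∀ i, NeZero (N₀ i)] [∀ i, NeZero (N₀' i)]
    (hS₀N : ∀ i, ∀ l, l.Prime → l ∣ N₀ i → l ∈ S₀)
    (hS₀N' : ∀ i, ∀ l, l.Prime → l ∣ N₀' i → l ∈ S₀)
    (hocc : ∀ i, ∀ s : TS O S₀, phiG O (hS₀N i) s = 0 → thS tl S₀ s = 0)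
    (hocc' : ∀ i, ∀ s : TS O S₀, phiG O (hS₀N' i) s = 0 → thS tl S₀ s = 0)
    {r : ℕ} {v : Fin r → ℕ} {A : Fin r → ValuationSubring (AlgebraicClosure ℚ)}
    {Φ : Fin r → GQ} (hinj : Function.Injective v) (hvS : ∀ i, v i ∉ S₀)
    {m c : Fin r → ℕ} (hmc : ∀ i, v i - 1 = p ^ m i * c i) (hc : ∀ i, ¬ p ∣ c i)
    (hm : ∀ i, 1 ≤ m i) (hv : ∀ i, TWp p tr (v i) (A i) (Φ i))
    {S : Set ℕ} (hSS : S = S₀ ∪ Set.range v) (hN : ∀ i, N i = N₀ i * ∏ i, v i)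
    (hN' : ∀ i, N' i = N₀' i * ∏ i, v i)
    [iF : ∀ i, NeZero (N i)] [iN : ∀ i (s : Finset (Fin r)), NeZero (NN (N₀ i) v s)]
    [iF' : ∀ i, NeZero (N' i)] [iN' : ∀ i (s : Finset (Fin r)), NeZero (NN (N₀' i) v s)]
    (hNS : ∀ i, ∀ l, l.Prime → l ∣ N i → l ∈ S)
    (hNS' : ∀ i, ∀ l, l.Prime → l ∣ N' i → l ∈ S)
    (hNNS : ∀ i s, ∀ l, l.Prime → l ∣ NN (N₀ i) v s → l ∈ S)
    (hNNS' : ∀ i s, ∀ l, l.Prime → l ∣ NN (N₀' i) v s → l ∈ S)
    (hvN : ∀ i j, v j ∣ N i) (hvN' : ∀ i j, v j ∣ N' i)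
    [hH : ∀ i, Fact ((-1 : (ZMod (N i))ˣ) ∈ HQ (hvN i) c)]
    [hH' : ∀ i, Fact ((-1 : (ZMod (N' i))ˣ) ∈ HQ (hvN' i) c)] :
    ∃ e : TS O S, (∀ i, EOK (hNNS i) (hNS i) (HQ (hvN i) c) (thS tl S) e) ∧
      (∀ i, EOK (hNNS' i) (hNS' i) (HQ (hvN' i) c) (thS tl S) e) ∧
      (∀ i, Lev0 hpO ι hgk (hNS i) (thS tl S) v A m c e
        (∑ i, 2 ^ r * Module.finrank O (XG O (N₀ i)) +
          ∑ i, 2 ^ r * Module.finrank O (XG O (N₀' i)))) ∧
      ∀ i, Lev0 hpO ι hgk (hNS' i) (thS tl S) v A m c e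
        (∑ i, 2 ^ r * Module.finrank O (XG O (N₀ i)) +
          ∑ i, 2 ^ r * Module.finrank O (XG O (N₀' i))) := by
  haveI j1 : ∀ i, NeZero (Sum.elim N N' i) := fun i => by
    rcases i with i | i
    · exact iF i
    · exact iF' i
  haveI j2 : ∀ i (s : Finset (Fin r)), NeZero (NN (Sum.elim N₀ N₀' i) v s) := fun i s => by
    rcases i with i | i
    · exact iN i s
    · exact iN' i s
  have k1 : ∀ (i : I ⊕ I) (s : Finset (Fin r)), ∀ l, l.Prime →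
      l ∣ NN (Sum.elim N₀ N₀' i) v s → l ∈ S := fun i => by
    rcases i with i | i
    · exact hNNS i
    · exact hNNS' i
  have k2 : ∀ i : I ⊕ I, ∀ l, l.Prime → l ∣ Sum.elim N N' i → l ∈ S := fun i => by
    rcases i with i | i
    · exact hNS i
    · exact hNS' i
  have k3 : ∀ (i : I ⊕ I) j, v j ∣ Sum.elim N N' i := fun i => by
    rcases i with i | i
    · exact hvN i
    · exact hvN' i
  haveI j3 : ∀ i : I ⊕ I, Fact ((-1 : (ZMod (Sum.elim N N' i))ˣ) ∈ HQ (k3 i) c) := fun i => by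
    rcases i with i | i
    · exact hH i
    · exact hH' i
  obtain ⟨e, he⟩ := exists_e_fam (v := v) (Sum.elim N₀ N₀') (Sum.elim N N') k1 k2
    (fun i => HQ (k3 i) c) (thS tl S)
  have e1 : ∀ i, EOK (hNNS i) (hNS i) (HQ (hvN i) c) (thS tl S) e := fun i => he (Sum.inl i)
  have e2 : ∀ i, EOK (hNNS' i) (hNS' i) (HQ (hvN' i) c) (thS tl S) e := fun i => he (Sum.inr i)
  refine ⟨e, e1, e2, fun i => ?_, fun i => ?_⟩
  · have hL : Lev0 hpO ι hgk (hNS i) (thS tl S) v A m c e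
        (2 ^ r * Module.finrank O (XG O (N₀ i))) :=
      exists_lev0 hpO hp2 ι hgk (hN₀ i) hS₀ hpS₀ (hS₀N i) ht htc hfrob (hocc i) hcom hinj hvS hmc
        hc hm hv (hN i) hSS (hNS i) (hvN i) (hNNS i) (e1 i)
    refine Lev0.mono hL (le_trans ?_ (Nat.le_add_right _ _))
    exact Finset.single_le_sum (f := fun i => 2 ^ r * Module.finrank O (XG O (N₀ i)))
      (fun _ _ => Nat.zero_le _) (Finset.mem_univ i)
  · have hL : Lev0 hpO ι hgk (hNS' i) (thS tl S) v A m c e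
        (2 ^ r * Module.finrank O (XG O (N₀' i))) :=
      exists_lev0 hpO hp2 ι hgk (hN₀' i) hS₀ hpS₀ (hS₀N' i) ht htc hfrob (hocc' i) hcom hinj hvS
        hmc hc hm hv (hN' i) hSS (hNS' i) (hvN' i) (hNNS' i) (e2 i)
    refine Lev0.mono hL (le_trans ?_ (Nat.le_add_left _ _))
    exact Finset.single_le_sum (f := fun i => 2 ^ r * Module.finrank O (XG O (N₀' i)))
      (fun _ _ => Nat.zero_le _) (Finset.mem_univ i)

end two

section lev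

variable {W : WeierstrassCurve ℤ} {p r₀ : ℕ} [hp : Fact p.Prime] {ρ : 𝒢 →* M2 (ZMod p)}
  (h : ResW W p ρ)
  {O : Type} [CommRing O] [IsDomain O] [IsDiscreteValuationRing O]
  [IsAdicComplete (maximalIdeal O) O] [CharZero O] [Finite (ResidueField O)]
  (hp2 : p ≠ 2) (hpO : (p : O) ∈ maximalIdeal O)
  (ι : AlgebraicClosure ℚ →+* ℂ) [Invertible (2 : O)] [Algebra (ZMod p) (ResidueField O)]
  {g₀ k₀ : 𝒢}
  (hgk : HG.IrrAt (fun g => (extW ρ (algebraMap (ZMod p) (ResidueField O)) g).trace) g₀ k₀)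
  {t : ℕ} {q : Fin t → ℕ} {ty : Fin t → Ty} {S₀ Un : Finset ℕ}
  (D : BData W p r₀ ρ (ResidueField O) q ty S₀ Un 1)

local notation "tlW" => tl (algebraMap (ZMod p) (ResidueField O)) W

omit [Finite (ResidueField O)] in
/-- residual modularity at the base levels `p * _` -/
theorem mod_p {W : WeierstrassCurve ℤ} {k : Type} [Field k] [Algebra (ZMod p) k] {ρ : 𝒢 →* M2 (ZMod p)}
    {ty : Fin t → Ty} (D : BData W p r₀ ρ k q ty S₀ Un 1)
    (hmod : W.IsResiduallyModularOfLevel p (baseN 1 r₀ Un)) :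
    W.IsResiduallyModularOfLevel p (baseN p r₀ Un) := by
  haveI : NeZero (baseN p r₀ Un) := ⟨(D.change (pe' := p) (Or.inr rfl)).base_pos.ne'⟩
  refine WM.raise ?_ hmod
  rw [baseN, baseN, one_mul]
  exact dvd_mul_left _ _

include h D hp2 in
/-- **The families of Taylor–Wiles levels (case III).** The levels `X J` are prime to `p`, the
levels `X' J = p · X J`. -/
theorem exists_famW3 (hmod : W.IsResiduallyModularOfLevel p (baseN 1 r₀ Un)) (haux : HAux tlW)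
    [∀ J, NeZero (CoreW.NJ 1 r₀ Un q J)] [∀ J, NeZero (CoreW.NJ p r₀ Un q J)]
    {r : ℕ} {v : Fin r → ℕ} {A : Fin r → ValuationSubring (AlgebraicClosure ℚ)}
    {Φv : Fin r → GQ} (hinj : Function.Injective v) (hvS : ∀ i, v i ∉ (S₀ : Set ℕ))
    {m c : Fin r → ℕ} (hmc : ∀ i, v i - 1 = p ^ m i * c i) (hc : ∀ i, ¬ p ∣ c i)
    (hm : ∀ i, 1 ≤ m i)
    (hv : ∀ i, TWp p (fun g => (extW ρ (algebraMap (ZMod p) (ResidueField O)) g).trace) (v i)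
      (A i) (Φv i))
    {S : Set ℕ} (hSS : S = (S₀ : Set ℕ) ∪ Set.range v)
    {N N' : Finset (Fin t) → ℕ} (hN : ∀ J, N J = CoreW.NJ 1 r₀ Un q J * ∏ i, v i)
    (hN' : ∀ J, N' J = CoreW.NJ p r₀ Un q J * ∏ i, v i)
    [∀ J, NeZero (N J)] [∀ J (s : Finset (Fin r)), NeZero (NN (CoreW.NJ 1 r₀ Un q J) v s)]
    [∀ J, NeZero (N' J)] [∀ J (s : Finset (Fin r)), NeZero (NN (CoreW.NJ p r₀ Un q J) v s)]
    (hNS : ∀ J, ∀ l, l.Prime → l ∣ N J → l ∈ S) (hNS' : ∀ J, ∀ l, l.Prime → l ∣ N' J → l ∈ S)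
    (hNNS : ∀ J s, ∀ l, l.Prime → l ∣ NN (CoreW.NJ 1 r₀ Un q J) v s → l ∈ S)
    (hNNS' : ∀ J s, ∀ l, l.Prime → l ∣ NN (CoreW.NJ p r₀ Un q J) v s → l ∈ S)
    (hvN : ∀ J i, v i ∣ N J) (hvN' : ∀ J i, v i ∣ N' J)
    [hH : ∀ J, Fact ((-1 : (ZMod (N J))ˣ) ∈ HQ (hvN J) c)]
    [hH' : ∀ J, Fact ((-1 : (ZMod (N' J))ˣ) ∈ HQ (hvN' J) c)]
    {Aq : Fin t → ValuationSubring (AlgebraicClosure ℚ)} (hAq : ∀ j, (Aq j).LiesOverPrime (q j))
    {Φ : Fin t → GQ} (hΦ : ∀ j, (Aq j).IsFrobeniusAt (Φ j) (q j)) :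
    ∃ (e : TS O S)
      (X : ∀ J, Lev0 hpO ι hgk (hNS J) (thS tlW S) v A m c e
        (bnd O 1 r₀ Un q r + bnd O p r₀ Un q r))
      (X' : ∀ J, Lev0 hpO ι hgk (hNS' J) (thS tlW S) v A m c e
        (bnd O 1 r₀ Un q r + bnd O p r₀ Un q r)),
      (∀ J, EOK (hNNS J) (hNS J) (HQ (hvN J) c) (thS tlW S) e) ∧
      (∀ J, EOK (hNNS' J) (hNS' J) (HQ (hvN' J) c) (thS tlW S) e) ∧
      ((∀ J j, j ∉ J → Nonempty (IhQ (LM.of (X J)) (LM.of (X (insert j J))) (q j) (Φ j))) ∧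
      (∀ j, Nonempty (IhQ (LM.of (X (Finset.univ.erase j))) (LM.of (X Finset.univ)) (q j)
        (Φ j))) ∧
      ∀ J, Nonempty (GMi (LM.of (X ∅)) (LM.of (X J)))) ∧
      ((∀ J j, j ∉ J → Nonempty (IhQ (LM.of (X' J)) (LM.of (X' (insert j J))) (q j) (Φ j))) ∧
      (∀ j, Nonempty (IhQ (LM.of (X' (Finset.univ.erase j))) (LM.of (X' Finset.univ)) (q j)
        (Φ j))) ∧
      ∀ J, Nonempty (GMi (LM.of (X' ∅)) (LM.of (X' J)))) := by
  have D' := D.change (pe' := p) (Or.inr rfl)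
  obtain ⟨e, he, he', X, X'⟩ := exists_famG2 hpO hp2 ι hgk (Finset.finite_toSet S₀) D.p_mem
    (isPseudoRep _ ρ) (isLocConst_tr h _)
    (fun l hl hlS A hA τ hτ => hfr h _ D.p_mem (fun _ hl hS => D.good hl hS) l hl hlS A hA τ hτ)
    (exists_com h _ hp2) (fun J => D.three_le J) (fun J => D'.three_le J) (fun J => D.hNS₀ J)
    (fun J => D'.hNS₀ J) (fun J => occ_base D hmod J (D.hNS₀ J))
    (fun J => occ_base D' (mod_p D hmod) J (D'.hNS₀ J)) hinj hvS hmc hc hm hv hSS hN hN' hNS hNS'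
    hNNS hNNS' hvN hvN'
  exact ⟨e, X, X', he, he',
    ihs_W h hp2 hpO ι hgk D haux hvS (fun i => (hv i).prime) hSS hN X he hAq hΦ,
    ihs_W h hp2 hpO ι hgk D' haux hvS (fun i => (hv i).prime) hSS hN' X' he' hAq hΦ⟩

end lev

end Fermat.Agent.AsmF
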