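import Fermat.Agent.AsmF.Fam
import Fermat.Agent.AsmL.Ihd
import Fermat.Agent.S59e.Fin
import Fermat.Agent.E2N.New

/-!
# The degeneracy data between two Taylor–Wiles levels
-/

set_option autoImplicit false
set_option linter.unusedSectionVars false
set_option linter.style.haveILetI false

open IsLocalRing
open scoped TensorProduct
open Fermat.Agent.KumG Fermat.Agent.GalRep Fermat.Agent.Places Fermat.Agent.Cheb Fermat.Agent.TW
open Fermat.Agent.Cov Fermat.Agent.JT Fermat.Agent.S59e Fermat.Agent.SSH Fermat.Agent.AsmL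
open Fermat.Agent.E2Y

namespace Fermat.Agent.AsmF

noncomputable section

section new

variable {O : Type} [CommRing O] [IsLocalRing O] [IsNoetherianRing O]
  [IsAdicComplete (maximalIdeal O) O] {S : Set ℕ}
  {q M N : ℕ} [hq : Fact q.Prime] [NeZero M] [NeZero N]
  {H : Subgroup (ZMod M)ˣ} [hH : Fact ((-1 : (ZMod M)ˣ) ∈ H)]
  {H' : Subgroup (ZMod N)ˣ} [hH' : Fact ((-1 : (ZMod N)ˣ) ∈ H')]
  {p : ℕ} [hp : Fact p.Prime] {hpO : (p : O) ∈ maximalIdeal O} {ι : AlgebraicClosure ℚ →+* ℂ}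

/-- **The classes with vanishing transfers** -/
theorem new_smul (h : Lv2 q H H') {hMS : ∀ l, l.Prime → l ∣ M → l ∈ S}
    {hNS : ∀ l, l.Prime → l ∣ N → l ∈ S} {e : TS O S} (D : WData q M H) (hqM : ¬ q ∣ M)
    (hM3 : 3 ≤ M) (hreg : ∀ x : O, (p : O) * x = 0 → x = 0) (hqp : q ≠ p)
    (hodd : Odd (Fintype.card (DG N H'))) {A : ValuationSubring (AlgebraicClosure ℚ)}
    (hA : A.LiesOverPrime q) {Φ : GQ} (hΦ : A.IsFrobeniusAt Φ q) {S' : Set ℕ}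
    {t : GQ → ResidueField O} {θ : TD O S N →ₐ[O] ResidueField O} [Nontrivial (YH H' hNS e)]
    [Module.Free O (YH H' hNS e)] (hg : HG hpO S' t (psiY H' hNS e) θ (rhoY hpO ι H' hNS e))
    {y : YH H' hNS e} (h1 : s1N h hMS hNS e D hqM y = 0) (h2 : s2N h hMS hNS e D hqM y = 0) :
    (hg.tt Φ ^ 2 - ((q : hg.TT) + 1) ^ 2) • y = 0 := by
  obtain ⟨hN, hH⟩ := h
  subst hN
  subst hH
  exact E2N.D_smul hg (cycO_frob hpO hq.out hqp hA hΦ)
    (E2N.rhoY_tor hpO ι hreg hqp hM3 D hA hΦ hqM hodd hNS e (congrArg Subtype.val h1)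
      (congrArg Subtype.val h2))

end new

section step

variable {O : Type} [CommRing O] [IsDomain O] [IsLocalRing O] [IsNoetherianRing O]
  [IsAdicComplete (maximalIdeal O) O] [CharZero O] {p : ℕ} [hp : Fact p.Prime]
  {hpO : (p : O) ∈ maximalIdeal O} {ι : AlgebraicClosure ℚ →+* ℂ} [Invertible (2 : O)]
  {t : GQ → ResidueField O} {g₀ k₀ : GQ} {hgk : HG.IrrAt t g₀ k₀} {S : Set ℕ}
  {θ : TS O S →ₐ[O] ResidueField O} {r : ℕ} {v : Fin r → ℕ}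
  {A : Fin r → ValuationSubring (AlgebraicClosure ℚ)} {m c : Fin r → ℕ} {e : TS O S} {B : ℕ}

theorem Lev0.lvY {N : ℕ} [NeZero N] {hNS : ∀ l, l.Prime → l ∣ N → l ∈ S}
    (X : Lev0 hpO ι hgk hNS θ v A m c e B) (heG : IsLoc (phiG O hNS) θ e)
    (heis : ∃ i : IS S, θ (eisP O i) ≠ 0 ∧ (N : ℤ) ∣ (i.1 : ℤ) - 1) :
    haveI := X.hH
    LvY p θ e (HQ X.hvN c) hNS :=
  haveI := X.hH
  ⟨X.hΔ, heG, X.heH, heis⟩

variable {q M N : ℕ} [hq : Fact q.Prime] [NeZero M] [NeZero N]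
  {hMS : ∀ l, l.Prime → l ∣ M → l ∈ S} {hNS : ∀ l, l.Prime → l ∣ N → l ∈ S}

theorem lv2_HQ (hN : N = q * M) (hvM : ∀ i, v i ∣ M) (hvN : ∀ i, v i ∣ N) :
    Lv2 q (HQ hvM c) (HQ hvN c) :=
  ⟨hN, (HM_HQ (hN ▸ dvd_mul_left M q : M ∣ N) hvM hvN c).symm⟩

theorem odd_card_of_pGroup {G : Type} [Group G] [Fintype G] (hp2 : p ≠ 2) (h : IsPGroup p G) :
    Odd (Fintype.card G) := by
  obtain ⟨n, hn⟩ := (IsPGroup.iff_card.1 h)
  rw [Nat.card_eq_fintype_card] at hn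
  rw [hn]
  exact (hp.out.odd_of_ne_two hp2).pow

/-- **The degeneracy data between two Taylor–Wiles levels.** -/
theorem exists_ihQ (hp2 : p ≠ 2) (hN : N = q * M) (hqM : ¬ q ∣ M) (hM3 : 3 ≤ M) (hqp : q ≠ p)
    (X : Lev0 hpO ι hgk hMS θ v A m c e B) (X' : Lev0 hpO ι hgk hNS θ v A m c e B)
    (heG : IsLoc (phiG O hMS) θ e) (heG' : IsLoc (phiG O hNS) θ e)
    (heis : ∃ i : IS S, θ (eisP O i) ≠ 0 ∧ (N : ℤ) ∣ (i.1 : ℤ) - 1)
    {l l₀ : ℕ} (haux : LevelRaise.Aux q M l l₀) (hlS : l ∉ S)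
    (hl : θ (ttP ⟨l, haux.hr, hlS⟩) ≠ 0)
    {Aq : ValuationSubring (AlgebraicClosure ℚ)} (hAq : Aq.LiesOverPrime q)
    {Φ : GQ} (hΦ : Aq.IsFrobeniusAt Φ q) :
    Nonempty (IhQ (LM.of X) (LM.of X') q Φ) := by
  haveI := X.hH
  haveI := X'.hH
  haveI := X.nt
  haveI := X'.nt
  haveI := X.fr
  haveI := X'.fr
  have hco : q.Coprime M := (Nat.Prime.coprime_iff_not_dvd hq.out).2 hqM
  have hodd : Odd (Fintype.card (DG M (HQ X.hvN c))) := odd_card_of_pGroup hp2 X.hΔ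
  have hodd' : Odd (Fintype.card (DG N (HQ X'.hvN c))) := odd_card_of_pGroup hp2 X'.hΔ
  have hidx : Odd (HQ X.hvN c).index := by
    rw [Subgroup.index_eq_card, Nat.card_eq_fintype_card]
    exact hodd
  obtain ⟨D⟩ := exists_WData_of_odd (q := q) (M := M) (H := HQ X.hvN c) hco hidx
  have h2 : Lv2 q (HQ X.hvN c) (HQ X'.hvN c) := lv2_HQ hN X.hvN X'.hvN
  have hU := Lev0.lvY X heG (by
    obtain ⟨i, h1, h2⟩ := heis
    refine ⟨i, h1, Dvd.dvd.trans ?_ h2⟩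
    rw [hN, Nat.cast_mul]
    exact dvd_mul_left _ _)
  have hV := Lev0.lvY X' heG' heis
  have hd := exists_degY hpO hp2 ι h2 D hqM hM3 hU hV (i := ⟨l, haux.hr, hlS⟩)
    (exists_IH D hp2 hqp haux haux.hrN) hl
  exact ⟨{
    i1 := ⟨i1N h2 hMS hNS e, hd.i1_rho⟩
    i2 := ⟨i2N h2 hMS hNS e D, hd.i2_rho⟩
    s1 := ⟨s1N h2 hMS hNS e D hqM, hd.s1_rho⟩
    s2 := ⟨s2N h2 hMS hNS e D hqM, hd.s2_rho⟩
    inj := hd.inj
    surj := hd.surj
    s11 := hd.s1_i1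
    s12 := fun x => (hd.s1_i2 x).trans (TqY_tt hpO ι D hqM hqp hodd hAq hΦ X.hg x)
    s21 := fun x => (hd.s2_i1 x).trans (TqY_tt hpO ι D hqM hqp hodd hAq hΦ X.hg x)
    s22 := hd.s2_i2
    new := fun y h1 h3 => new_smul h2 D hqM hM3
      (fun x hx => (mul_eq_zero.1 hx).resolve_left (Nat.cast_ne_zero.2 hp.out.ne_zero)) hqp hodd'
      hAq hΦ X'.hg h1 h3 }⟩

end step

end

end Fermat.Agent.AsmF
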