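import Fermat.Agent.AsmF.FamIh
import Fermat.Agent.S59e.IharaQ

/-!
# The step at `p`
-/

set_option autoImplicit false
set_option linter.unusedSectionVars false
set_option linter.style.haveILetI false

open IsLocalRing
open scoped TensorProduct
open Fermat.Agent.KumG Fermat.Agent.GalRep Fermat.Agent.Places Fermat.Agent.Cheb Fermat.Agent.TW
open Fermat.Agent.Cov Fermat.Agent.JT Fermat.Agent.S59e Fermat.Agent.SSH Fermat.Agent.AsmL
open Fermat.Agent.E2Y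

namespace Fermat.Agent.AsmF

noncomputable section

section step

variable {O : Type} [CommRing O] [IsDomain O] [IsLocalRing O] [IsNoetherianRing O]
  [IsAdicComplete (maximalIdeal O) O] [CharZero O] {p : ℕ} [hp : Fact p.Prime]
  {hpO : (p : O) ∈ maximalIdeal O} {ι : AlgebraicClosure ℚ →+* ℂ} [Invertible (2 : O)]
  {t : GQ → ResidueField O} {g₀ k₀ : GQ} {hgk : HG.IrrAt t g₀ k₀} {S : Set ℕ}
  {θ : TS O S →ₐ[O] ResidueField O} {r : ℕ} {v : Fin r → ℕ}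
  {A : Fin r → ValuationSubring (AlgebraicClosure ℚ)} {m c : Fin r → ℕ} {e : TS O S} {B : ℕ}
  {q M N : ℕ} [hq : Fact q.Prime] [NeZero M] [NeZero N]
  {hMS : ∀ l, l.Prime → l ∣ M → l ∈ S} {hNS : ∀ l, l.Prime → l ∣ N → l ∈ S}

/-- **The degeneracy maps between two Taylor–Wiles levels**, any prime `q`. -/
theorem exists_deg (hp2 : p ≠ 2) (hN : N = q * M) (hqM : ¬ q ∣ M) (hM3 : 3 ≤ M)
    (X : Lev0 hpO ι hgk hMS θ v A m c e B) (X' : Lev0 hpO ι hgk hNS θ v A m c e B)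
    (heG : IsLoc (phiG O hMS) θ e) (heG' : IsLoc (phiG O hNS) θ e)
    (heis : ∃ i : IS S, θ (eisP O i) ≠ 0 ∧ (N : ℤ) ∣ (i.1 : ℤ) - 1)
    {l l₀ : ℕ} (haux : LevelRaise.Aux q M l l₀) (hlS : l ∉ S)
    (hl : θ (ttP ⟨l, haux.hr, hlS⟩) ≠ 0) :
    haveI := X.hH
    haveI := X'.hH
    ∃ (h2 : Lv2 q (HQ X.hvN c) (HQ X'.hvN c)) (D : WData q M (HQ X.hvN c)),
      DegY hpO ι h2 hMS hNS e D hqM := by
  haveI := X.hH
  haveI := X'.hH
  haveI := X.nt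
  haveI := X'.nt
  have hco : q.Coprime M := (Nat.Prime.coprime_iff_not_dvd hq.out).2 hqM
  have hodd : Odd (Fintype.card (DG M (HQ X.hvN c))) := odd_card_of_pGroup hp2 X.hΔ
  have hidx : Odd (HQ X.hvN c).index := by
    rw [Subgroup.index_eq_card, Nat.card_eq_fintype_card]
    exact hodd
  obtain ⟨D⟩ := exists_WData_of_odd (q := q) (M := M) (H := HQ X.hvN c) hco hidx
  have h2 : Lv2 q (HQ X.hvN c) (HQ X'.hvN c) := lv2_HQ hN X.hvN X'.hvN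
  have hU := Lev0.lvY X heG (by
    obtain ⟨i, h1, h2⟩ := heis
    refine ⟨i, h1, Dvd.dvd.trans ?_ h2⟩
    rw [hN, Nat.cast_mul]
    exact dvd_mul_left _ _)
  have hV := Lev0.lvY X' heG' heis
  exact ⟨h2, D, exists_degY hpO hp2 ι h2 D hqM hM3 hU hV (i := ⟨l, haux.hr, hlS⟩)
    (ih_all D haux hp.out hp2) hl⟩

/-- the first degeneracy map -/
theorem exists_gmi_of_deg (X : Lev0 hpO ι hgk hMS θ v A m c e B)
    (X' : Lev0 hpO ι hgk hNS θ v A m c e B) (hqM : ¬ q ∣ M)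
    (h : haveI := X.hH; haveI := X'.hH
      ∃ (h2 : Lv2 q (HQ X.hvN c) (HQ X'.hvN c)) (D : WData q M (HQ X.hvN c)),
      DegY hpO ι h2 hMS hNS e D hqM) : Nonempty (GMi (LM.of X) (LM.of X')) := by
  haveI := X.hH
  haveI := X'.hH
  obtain ⟨h2, D, hd⟩ := h
  exact ⟨{
    u := i1N h2 hMS hNS e
    hu := hd.i1_rho
    inj := fun x hx => (hd.inj x 0 (by rw [map_zero, add_zero]; exact hx)).1 }⟩

/-- **The degeneracy data from the degeneracy maps.** -/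
theorem exists_ihd_of_deg (X : Lev0 hpO ι hgk hMS θ v A m c e B)
    (X' : Lev0 hpO ι hgk hNS θ v A m c e B) (hqM : ¬ q ∣ M) {T : (LM.of X).hg.TT}
    {Pr : (LM.of X').Y → Prop} :
    haveI := X.hH
    haveI := X'.hH
    ∀ (h2 : Lv2 q (HQ X.hvN c) (HQ X'.hvN c)) (D : WData q M (HQ X.hvN c))
      (_ : DegY hpO ι h2 hMS hNS e D hqM)
      (_ : ∀ y : (LM.of X).Y, TqY hMS e D hqM y = T • y)
      (_ : ∀ y : (LM.of X').Y, s1N h2 hMS hNS e D hqM y = 0 → s2N h2 hMS hNS e D hqM y = 0 → Pr y),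
      ∃ I : IhD (LM.of X) (LM.of X') q T, ∀ y, I.s1.u y = 0 → I.s2.u y = 0 → Pr y := by
  haveI := X.hH
  haveI := X'.hH
  intro h2 D hd hT hP
  exact ⟨{
    i1 := ⟨i1N h2 hMS hNS e, hd.i1_rho⟩
    i2 := ⟨i2N h2 hMS hNS e D, hd.i2_rho⟩
    s1 := ⟨s1N h2 hMS hNS e D hqM, hd.s1_rho⟩
    s2 := ⟨s2N h2 hMS hNS e D hqM, hd.s2_rho⟩
    inj := hd.inj
    surj := hd.surj
    s11 := hd.s1_i1
    s12 := fun x => (hd.s1_i2 x).trans (hT x)
    s21 := fun x => (hd.s2_i1 x).trans (hT x)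
    s22 := hd.s2_i2 }, hP⟩

end step

section fam

variable {O : Type} [CommRing O] [IsDomain O] [IsDiscreteValuationRing O]
  [IsAdicComplete (maximalIdeal O) O] [CharZero O] {p : ℕ} [hp : Fact p.Prime]
  {hpO : (p : O) ∈ maximalIdeal O}

/-- **The degeneracy maps of a step of the family**, any prime `q`. -/
theorem exists_deg_fam (hp2 : p ≠ 2) {ι : AlgebraicClosure ℚ →+* ℂ}
    [Invertible (2 : O)] {tr D : GQ → ResidueField O} {g₀ k₀ : GQ} {hgk : HG.IrrAt tr g₀ k₀}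
    {S₀ : Set ℕ} (hS₀ : S₀.Finite) {tl : ℕ → ResidueField O} (haux : HAux tl)
    (ht : IsPseudoRep tr D) (htc : IsLocConst tr)
    (hfrob : ∀ l : ℕ, l.Prime → l ∉ S₀ → ∀ A : ValuationSubring (AlgebraicClosure ℚ),
      A.LiesOverPrime l → ∀ τ : GQ, A.IsFrobeniusAt τ l → tr τ = tl l ∧ D τ = l)
    (hcom : ∃ σ τ, tr (σ * τ * σ⁻¹ * τ⁻¹) ≠ 2)
    {r : ℕ} {v : Fin r → ℕ} {A : Fin r → ValuationSubring (AlgebraicClosure ℚ)}
    {m c : Fin r → ℕ} {S : Set ℕ} (hSS : S = S₀ ∪ Set.range v) {q M₀ M N₀ N : ℕ}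
    [hq : Fact q.Prime]
    (hM3 : 3 ≤ M) (hM : M = M₀ * ∏ i, v i) (hN : N = N₀ * ∏ i, v i)
    (hMN : N = q * M) (hqM : ¬ q ∣ M) [NeZero M] [NeZero N]
    [∀ s : Finset (Fin r), NeZero (NN M₀ v s)] [∀ s : Finset (Fin r), NeZero (NN N₀ v s)]
    {hMS : ∀ l, l.Prime → l ∣ M → l ∈ S} {hNS : ∀ l, l.Prime → l ∣ N → l ∈ S}
    {hMMS : ∀ s, ∀ l, l.Prime → l ∣ NN M₀ v s → l ∈ S}
    {hNNS : ∀ s, ∀ l, l.Prime → l ∣ NN N₀ v s → l ∈ S}
    {e : TS O S} {B : ℕ} (X : Lev0 hpO ι hgk hMS (thS tl S) v A m c e B)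
    (X' : Lev0 hpO ι hgk hNS (thS tl S) v A m c e B)
    (hX : haveI := X.hH; EOK hMMS hMS (HQ X.hvN c) (thS tl S) e)
    (hX' : haveI := X'.hH; EOK hNNS hNS (HQ X'.hvN c) (thS tl S) e) :
    haveI := X.hH
    haveI := X'.hH
    ∃ (h2 : Lv2 q (HQ X.hvN c) (HQ X'.hvN c)) (D : WData q M (HQ X.hvN c)),
      DegY hpO ι h2 hMS hNS e D hqM := by
  haveI := X.hH
  haveI := X'.hH
  have hS₀S : S₀ ⊆ S := by rw [hSS]; exact Set.subset_union_left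
  have hS : S.Finite := by rw [hSS]; exact hS₀.union (Set.finite_range v)
  obtain ⟨l, l₀, hlS, hl, hl2⟩ := haux q M hq.out (NeZero.pos M) hqM S hS
  exact exists_deg hp2 hMN hqM hM3 X X' (EOK.top hX hM) (EOK.top hX' hN)
    (exists_eis hpO ht htc hfrob hcom hS hS₀S N) hl hlS (thS_ttP ⟨l, hl.hr, hlS⟩ hl2)

end fam

end

end Fermat.Agent.AsmF
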